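import Fermat.Agent.S24.Degree
import Fermat.Agent.S24.A564.RHAssembly
import Fermat.Prelude.Def_GaloisRep_Residual

/-!
# Open stabilisers of the points of `JZero N`  (GALREP package HK4, helper1300)

Every point of `JZero N` (and every finite set of points) is fixed by `Gal(ℚ̄/E)` for some
finite extension `E/ℚ`.  Consequently the Galois representation on `JZero N [n]` factors through
a finite level as soon as `JZero N [n]` is finite.

The general part works for `Pic0` of `laurentBaseChange L F₀` for any algebraic extension `L/ℚ`,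
under the hypothesis that every nonzero function has finitely many zeros and poles.
-/

set_option autoImplicit false

noncomputable section

namespace Fermat.Agent.S30.H1300

open AlgebraicCurve ModularCurve IntermediateField

section Separation

variable {K F : Type*} [Field K] [Field F] [Algebra K F]

/-- Two distinct places are separated by a function: positive order at `P`, non-positive order
at `v`. -/
theorem exists_separating {v P : Place K F} (hne : v ≠ P) :
    ∃ h : F, 0 < P.ord h ∧ v.ord h ≤ 0 := by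
  by_contra hcon
  simp only [not_exists, not_and, not_le] at hcon
  apply hne
  apply Place.ext
  ext x
  rcases eq_or_ne x 0 with rfl | hx
  · exact ⟨fun _ => zero_mem _, fun _ => zero_mem _⟩
  rw [Fermat.Agent.S24.A564.SO.Place_mem_iff v hx, Fermat.Agent.S24.A564.SO.Place_mem_iff P hx]
  constructor
  · intro hv
    by_contra hP
    have h1 := hcon x⁻¹ (by rw [Place.ord_inv]; omega)
    rw [Place.ord_inv] at h1
    omega
  · intro hP
    by_contra hv
    obtain ⟨π, hπ⟩ := IsDiscreteValuationRing.exists_irreducible P.toValuationSubring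
    have hπ1 : P.ord (π : F) = 1 := P.ord_coe_irreducible hπ
    have hπ0 : (π : F) ≠ 0 := by
      intro h0
      rw [h0, Place.ord_zero] at hπ1
      omega
    have ha : 0 < v.ord (π : F) := hcon _ (by omega)
    set a := v.ord (π : F) with ha_def
    have hxa : x ^ a ≠ 0 := zpow_ne_zero a hx
    have hPy : P.ord (x ^ a * (π : F)) = a * P.ord x + 1 := by
      rw [P.ord_mul hxa hπ0, P.ord_zpow, hπ1]
    have hvy : v.ord (x ^ a * (π : F)) = a * v.ord x + a := by
      rw [v.ord_mul hxa hπ0, v.ord_zpow]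
    have h1 : 0 < P.ord (x ^ a * (π : F)) := by
      rw [hPy]
      have : 0 ≤ a * P.ord x := mul_nonneg ha.le hP
      omega
    have h2 := hcon _ h1
    rw [hvy] at h2
    have h3 : a * v.ord x ≤ a * (-1) := mul_le_mul_of_nonneg_left (by omega) ha.le
    omega

end Separation

section Fixing

variable {L : Type*} [Field L] [Algebra ℚ L] (F₀ : IntermediateField ℚ (LaurentSeries ℚ))

/-- Laurent-series level: every element of the base-changed field has all its coefficients
"defined over" a finite extension of `ℚ`. -/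
theorem exists_fixing_laurent [Algebra.IsAlgebraic ℚ L] {x : LaurentSeries L}
    (hx : x ∈ laurentBaseChange L F₀) :
    ∃ E : IntermediateField ℚ L, FiniteDimensional ℚ E ∧
      ∀ σ : L ≃ₐ[ℚ] L, (∀ y ∈ E, σ y = y) → coeffMap (σ : L →+* L) x = x := by
  rw [mem_laurentBaseChange_iff] at hx
  induction hx using Subfield.closure_induction with
  | mem y hy =>
    rcases hy with ⟨a, rfl⟩ | ⟨z, hz, rfl⟩
    · refine ⟨ℚ⟮a⟯, IntermediateField.adjoin.finiteDimensional
        (Algebra.IsAlgebraic.isAlgebraic a).isIntegral, fun σ hσ => ?_⟩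
      rw [coeffMap_algebraMap]
      congr 1
      exact hσ a (IntermediateField.mem_adjoin_simple_self ℚ a)
    · exact ⟨⊥, inferInstance, fun σ _ => coeffMap_coeffEmb σ z⟩
  | one => exact ⟨⊥, inferInstance, fun σ _ => map_one _⟩
  | add x y _ _ hx hy =>
    obtain ⟨E₁, h₁, hE₁⟩ := hx
    obtain ⟨E₂, h₂, hE₂⟩ := hy
    refine ⟨E₁ ⊔ E₂, IntermediateField.finiteDimensional_sup E₁ E₂, fun σ hσ => ?_⟩
    rw [map_add, hE₁ σ (fun y hy => hσ y ((le_sup_left : E₁ ≤ E₁ ⊔ E₂) hy)),
      hE₂ σ (fun y hy => hσ y ((le_sup_right : E₂ ≤ E₁ ⊔ E₂) hy))]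
  | neg x _ hx =>
    obtain ⟨E, h, hE⟩ := hx
    exact ⟨E, h, fun σ hσ => by rw [map_neg, hE σ hσ]⟩
  | inv x _ hx =>
    obtain ⟨E, h, hE⟩ := hx
    exact ⟨E, h, fun σ hσ => by rw [map_inv₀, hE σ hσ]⟩
  | mul x y _ _ hx hy =>
    obtain ⟨E₁, h₁, hE₁⟩ := hx
    obtain ⟨E₂, h₂, hE₂⟩ := hy
    refine ⟨E₁ ⊔ E₂, IntermediateField.finiteDimensional_sup E₁ E₂, fun σ hσ => ?_⟩
    rw [map_mul, hE₁ σ (fun y hy => hσ y ((le_sup_left : E₁ ≤ E₁ ⊔ E₂) hy)),
      hE₂ σ (fun y hy => hσ y ((le_sup_right : E₂ ≤ E₁ ⊔ E₂) hy))]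

/-- Every function is fixed by the Galois group of a finite extension. -/
theorem exists_fixing_elem [Algebra.IsAlgebraic ℚ L] (f : laurentBaseChange L F₀) :
    ∃ E : IntermediateField ℚ L, FiniteDimensional ℚ E ∧
      ∀ σ : L ≃ₐ[ℚ] L, (∀ y ∈ E, σ y = y) → arithmeticGalois F₀ σ • f = f := by
  obtain ⟨E, h, hE⟩ := exists_fixing_laurent F₀ f.2
  exact ⟨E, h, fun σ hσ => Subtype.ext (by rw [coe_arithmeticGalois_smul]; exact hE σ hσ)⟩

/-- Every finite set of functions is fixed by the Galois group of a finite extension. -/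
theorem exists_fixing_finset [Algebra.IsAlgebraic ℚ L] (S : Finset (laurentBaseChange L F₀)) :
    ∃ E : IntermediateField ℚ L, FiniteDimensional ℚ E ∧
      ∀ σ : L ≃ₐ[ℚ] L, (∀ y ∈ E, σ y = y) → ∀ f ∈ S, arithmeticGalois F₀ σ • f = f := by
  classical
  induction S using Finset.induction_on with
  | empty => exact ⟨⊥, inferInstance, fun _ _ f hf => absurd hf (Finset.notMem_empty f)⟩
  | insert a S _ ih =>
    obtain ⟨E₁, h₁, hE₁⟩ := exists_fixing_elem F₀ a
    obtain ⟨E₂, h₂, hE₂⟩ := ih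
    refine ⟨E₁ ⊔ E₂, IntermediateField.finiteDimensional_sup E₁ E₂, fun σ hσ f hf => ?_⟩
    rcases Finset.mem_insert.mp hf with rfl | hf
    · exact hE₁ σ (fun y hy => hσ y ((le_sup_left : E₁ ≤ E₁ ⊔ E₂) hy))
    · exact hE₂ σ (fun y hy => hσ y ((le_sup_right : E₂ ≤ E₁ ⊔ E₂) hy)) f hf

variable (hfin : ∀ f : laurentBaseChange L F₀, f ≠ 0 →
  ∃ T : Finset (Place L (laurentBaseChange L F₀)), ∀ v, v ∉ T → v.ord f = 0)

include hfin

/-- Every place is fixed by the Galois group of a finite extension. -/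
theorem exists_fixing_place [Algebra.IsAlgebraic ℚ L] (P : Place L (laurentBaseChange L F₀)) :
    ∃ E : IntermediateField ℚ L, FiniteDimensional ℚ E ∧
      ∀ σ : L ≃ₐ[ℚ] L, (∀ y ∈ E, σ y = y) → arithmeticGalois F₀ σ • P = P := by
  classical
  obtain ⟨π, hπ⟩ := IsDiscreteValuationRing.exists_irreducible P.toValuationSubring
  obtain ⟨p, hp⟩ : ∃ p : laurentBaseChange L F₀, p = (π : laurentBaseChange L F₀) := ⟨_, rfl⟩
  have hπ1 : P.ord p = 1 := by
    rw [hp]
    exact P.ord_coe_irreducible hπ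
  have hπ0 : p ≠ 0 := by
    intro h0
    rw [h0, Place.ord_zero] at hπ1
    exact zero_ne_one hπ1
  clear hp hπ π
  obtain ⟨T, hT⟩ := hfin p hπ0
  have hsep : ∀ v : Place L (laurentBaseChange L F₀), ∃ h : laurentBaseChange L F₀,
      v ≠ P → 0 < P.ord h ∧ v.ord h ≤ 0 := by
    intro v
    by_cases hv : v = P
    · exact ⟨0, fun h => absurd hv h⟩
    · obtain ⟨h, hh⟩ := exists_separating hv
      exact ⟨h, fun _ => hh⟩
  choose h hh using hsep
  obtain ⟨E, hEfin, hE⟩ := exists_fixing_finset F₀ (insert p (T.image h))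
  refine ⟨E, hEfin, fun σ hσ => ?_⟩
  by_contra hne
  obtain ⟨g, hg⟩ : ∃ g : SemilinearAut L (laurentBaseChange L F₀), g = arithmeticGalois F₀ σ :=
    ⟨_, rfl⟩
  rw [← hg] at hne
  have hfix : ∀ f ∈ insert p (T.image h), g • f = f := by
    intro f hf
    rw [hg]
    exact hE σ hσ f hf
  have h1 : (g • P).ord p = 1 := by
    have h2 := SemilinearAut.ord_smul g P p
    rw [hfix p (Finset.mem_insert_self _ _)] at h2
    rw [h2, hπ1]
  have hmem : g • P ∈ T := by
    by_contra hnot
    have h3 := hT _ hnot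
    rw [h1] at h3
    exact one_ne_zero h3
  obtain ⟨hpos, hle⟩ := hh (g • P) hne
  have h2 := SemilinearAut.ord_smul g P (h (g • P))
  rw [hfix _ (Finset.mem_insert_of_mem (Finset.mem_image_of_mem h hmem))] at h2
  rw [h2] at hle
  exact absurd hpos (not_lt.mpr hle)

/-- Every divisor is fixed by the Galois group of a finite extension. -/
theorem exists_fixing_divisor [Algebra.IsAlgebraic ℚ L]
    (D : Divisor L (laurentBaseChange L F₀)) :
    ∃ E : IntermediateField ℚ L, FiniteDimensional ℚ E ∧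
      ∀ σ : L ≃ₐ[ℚ] L, (∀ y ∈ E, σ y = y) → arithmeticGalois F₀ σ • D = D := by
  induction D using Finsupp.induction with
  | zero => exact ⟨⊥, inferInstance, fun σ _ => smul_zero _⟩
  | single_add v n D _ _ ih =>
    obtain ⟨E₁, h₁, hE₁⟩ := exists_fixing_place F₀ hfin v
    obtain ⟨E₂, h₂, hE₂⟩ := ih
    refine ⟨E₁ ⊔ E₂, IntermediateField.finiteDimensional_sup E₁ E₂, fun σ hσ => ?_⟩
    rw [smul_add, SemilinearAut.smul_single,
      hE₁ σ (fun y hy => hσ y ((le_sup_left : E₁ ≤ E₁ ⊔ E₂) hy)),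
      hE₂ σ (fun y hy => hσ y ((le_sup_right : E₂ ≤ E₁ ⊔ E₂) hy))]

/-- Every point of `Pic0` is fixed by the Galois group of a finite extension. -/
theorem exists_fixing_pic0 [Algebra.IsAlgebraic ℚ L]
    (x : Pic0 L (laurentBaseChange L F₀)) :
    ∃ E : IntermediateField ℚ L, FiniteDimensional ℚ E ∧
      ∀ σ : L ≃ₐ[ℚ] L, (∀ y ∈ E, σ y = y) → σ • x = x := by
  obtain ⟨D, rfl⟩ := Pic0.mk_surjective x
  obtain ⟨E, hEfin, hE⟩ := exists_fixing_divisor F₀ hfin (D : Divisor L (laurentBaseChange L F₀))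
  refine ⟨E, hEfin, fun σ hσ => ?_⟩
  rw [galois_smul_pic0_def, SemilinearAut.pic0_smul_mk]
  refine congrArg Pic0.mk (Subtype.ext ?_)
  rw [SemilinearAut.coe_degZeroSMulHom]
  exact hE σ hσ

/-- Every finite set of points of `Pic0` is fixed by the Galois group of a finite extension. -/
theorem exists_fixing_pic0_finite [Algebra.IsAlgebraic ℚ L]
    (S : Set (Pic0 L (laurentBaseChange L F₀))) (hS : S.Finite) :
    ∃ E : IntermediateField ℚ L, FiniteDimensional ℚ E ∧
      ∀ σ : L ≃ₐ[ℚ] L, (∀ y ∈ E, σ y = y) → ∀ x ∈ S, σ • x = x := by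
  induction S, hS using Set.Finite.induction_on with
  | empty => exact ⟨⊥, inferInstance, fun _ _ x hx => absurd hx (Set.notMem_empty x)⟩
  | @insert a S _ _ ih =>
    obtain ⟨E₁, h₁, hE₁⟩ := exists_fixing_pic0 F₀ hfin a
    obtain ⟨E₂, h₂, hE₂⟩ := ih
    refine ⟨E₁ ⊔ E₂, IntermediateField.finiteDimensional_sup E₁ E₂, fun σ hσ x hx => ?_⟩
    rcases Set.mem_insert_iff.mp hx with rfl | hx
    · exact hE₁ σ (fun y hy => hσ y ((le_sup_left : E₁ ≤ E₁ ⊔ E₂) hy))
    · exact hE₂ σ (fun y hy => hσ y ((le_sup_right : E₂ ≤ E₁ ⊔ E₂) hy)) x hx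

end Fixing

section JZeroInst

variable (N : ℕ) [NeZero N]

/-- A nonzero function on `X₀(N)` over `ℚ̄` has finitely many zeros and poles
(from the landed S24 library). -/
theorem JZero_finite_zeros_poles (f : ↥(modularFunctionFieldBar N)) :
    ∃ T : Finset (Place (AlgebraicClosure ℚ) ↥(modularFunctionFieldBar N)),
      ∀ v, v ∉ T → v.ord f = 0 := by
  haveI := Fermat.Agent.S24.finiteDimensional_jBar N
  obtain ⟨T, hT, -⟩ := Fermat.Agent.S24.A564.exists_finset_sum_ord_eq_zero
    (Fermat.Agent.S24.jBar N) (Fermat.Agent.S24.jBar_transcendental N) f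
  exact ⟨T, hT⟩

/-- **HK4.** Every point of `JZero N` is fixed by `Gal(ℚ̄/E)` for a finite extension `E/ℚ`. -/
theorem JZero_exists_fixing (x : JZero N) :
    ∃ E : IntermediateField ℚ (AlgebraicClosure ℚ), FiniteDimensional ℚ E ∧
      ∀ σ : AlgebraicClosure ℚ ≃ₐ[ℚ] AlgebraicClosure ℚ, (∀ y ∈ E, σ y = y) → σ • x = x := by
  haveI : Algebra.IsAlgebraic ℚ (AlgebraicClosure ℚ) := AlgebraicClosure.isAlgebraic ℚ
  exact exists_fixing_pic0 (modularFunctionFieldFull N)
    (fun f _ => JZero_finite_zeros_poles N f) x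

/-- **HK4, finite sets.** Every finite set of points of `JZero N` is fixed pointwise by
`Gal(ℚ̄/E)` for a finite extension `E/ℚ`. -/
theorem JZero_exists_fixing_finite (S : Set (JZero N)) (hS : S.Finite) :
    ∃ E : IntermediateField ℚ (AlgebraicClosure ℚ), FiniteDimensional ℚ E ∧
      ∀ σ : AlgebraicClosure ℚ ≃ₐ[ℚ] AlgebraicClosure ℚ, (∀ y ∈ E, σ y = y) →
        ∀ x ∈ S, σ • x = x := by
  haveI : Algebra.IsAlgebraic ℚ (AlgebraicClosure ℚ) := AlgebraicClosure.isAlgebraic ℚ
  exact exists_fixing_pic0_finite (modularFunctionFieldFull N)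
    (fun f _ => JZero_finite_zeros_poles N f) S hS

/-- **HK4, torsion form.** If `JZero N [n]` is finite, its Galois representation factors through
a finite level (the Prelude's `GaloisFactorsThroughFiniteLevel`). -/
theorem torsionGaloisRep_factorsThroughFiniteLevel (n : ℕ)
    (hfin : (Pic0.torsion (AlgebraicClosure ℚ) (modularFunctionFieldBar N) n :
      Set (JZero N)).Finite) :
    GaloisFactorsThroughFiniteLevel (JZero.torsionGaloisRep N n) := by
  obtain ⟨E, hE, h⟩ := JZero_exists_fixing_finite N _ hfin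
  refine ⟨E, hE, fun σ hσ => ?_⟩
  refine LinearMap.ext fun x => Subtype.ext ?_
  rw [JZero.coe_torsionGaloisRep_apply]
  exact h σ hσ x x.2

end JZeroInst

end Fermat.Agent.S30.H1300
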